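import Mathlib.Algebra.Order.Round
import Mathlib.NumberTheory.DiophantineApproximation.Basic
import Mathlib.NumberTheory.Real.Irrational

/-!
# Consecutive best approximations

Of two consecutive steps `s < S < T` of best approximations one grows at least by the factor
`3 / 2`, since `T ≥ S + s`.
-/

set_option autoImplicit false

noncomputable section

namespace FA.DigitRepetitions

/-- The distance of `m g` to the integers. -/
def gapDist (g : ℝ) (m : ℕ) : ℝ := |(m : ℝ) * g - round ((m : ℝ) * g)|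

/-- The denominator of a best approximation. -/
def IsBest (g : ℝ) (s : ℕ) : Prop := 0 < s ∧ ∀ m, 0 < m → m < s → gapDist g s < gapDist g m

/-- The next best approximation. -/
def IsNext (g : ℝ) (s S : ℕ) : Prop :=
  s < S ∧ gapDist g S < gapDist g s ∧ ∀ m, 0 < m → m < S → gapDist g s ≤ gapDist g m

variable {g : ℝ}

theorem gapDist_le (m : ℕ) (z : ℤ) : gapDist g m ≤ |(m : ℝ) * g - z| := round_le _ _

theorem gapDist_pos (hg : Irrational g) {m : ℕ} (hm : 0 < m) : 0 < gapDist g m :=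
  abs_pos.2 (sub_ne_zero.2 ((hg.natCast_mul hm.ne').ne_int _))

theorem gapDist_dirichlet {S : ℕ} (hS : 2 ≤ S) :
    ∃ k, 0 < k ∧ k < S ∧ gapDist g k * S ≤ 1 := by
  obtain ⟨k, hk0, hk, h⟩ := Real.exists_nat_abs_mul_sub_round_le g (show 0 < S - 1 by omega)
  refine ⟨k, hk0, by omega, ?_⟩
  rw [Nat.cast_sub (by omega : 1 ≤ S), Nat.cast_one, sub_add_cancel] at h
  rwa [← le_div_iff₀ (by exact_mod_cast (show 0 < S by omega))]

theorem exists_next (hg : Irrational g) {s : ℕ} (hs : IsBest g s) :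
    ∃ S, IsNext g s S ∧ IsBest g S := by
  classical
  have hpos := gapDist_pos hg hs.1
  have hex : ∃ S : ℕ, 0 < S ∧ gapDist g S < gapDist g s := by
    obtain ⟨n, hn⟩ := exists_nat_gt (1 / gapDist g s)
    obtain ⟨k, hk0, -, hk⟩ := gapDist_dirichlet (g := g) (show 2 ≤ n + 2 by omega)
    refine ⟨k, hk0, ?_⟩
    rw [div_lt_iff₀ hpos] at hn
    push_cast at hk
    nlinarith [gapDist_pos hg hk0]
  obtain ⟨hS0, hS⟩ := Nat.find_spec hex
  have hmin : ∀ m, 0 < m → m < Nat.find hex → gapDist g s ≤ gapDist g m := fun m hm0 hm =>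
    not_lt.1 fun h => Nat.find_min hex hm ⟨hm0, h⟩
  refine ⟨Nat.find hex, ⟨?_, hS, hmin⟩, hS0, fun m hm0 hm => lt_of_lt_of_le hS (hmin m hm0 hm)⟩
  rcases lt_trichotomy s (Nat.find hex) with h | h | h
  · exact h
  · rw [← h] at hS
    exact absurd hS (lt_irrefl _)
  · exact absurd (hs.2 _ hS0 h) (not_lt.2 hS.le)

theorem exists_best_ge (hg : Irrational g) : ∀ N : ℕ, ∃ s, N ≤ s ∧ IsBest g s
  | 0 => ⟨1, Nat.zero_le _, one_pos, fun m h1 h2 => by omega⟩
  | N + 1 => by
      obtain ⟨s, hs, hb⟩ := exists_best_ge hg N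
      obtain ⟨S, hS, hbS⟩ := exists_next hg hb
      have := hS.1
      exact ⟨S, by omega, hbS⟩

/-- Three consecutive best approximations. -/
theorem add_le_of_next (hg : Irrational g) {s S T : ℕ} (hs : 0 < s) (h1 : IsNext g s S)
    (h2 : IsNext g S T) : s + S ≤ T := by
  obtain ⟨hsS, hd1, hmin⟩ := h1
  obtain ⟨hST, hd2, -⟩ := h2
  set p := round ((s : ℝ) * g) with hp
  set P := round ((S : ℝ) * g) with hP
  set Q := round ((T : ℝ) * g) with hQ
  set e := (s : ℝ) * g - p with he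
  set E := (S : ℝ) * g - P with hE
  set F := (T : ℝ) * g - Q with hF
  rw [show gapDist g S = |E| from rfl, show gapDist g s = |e| from rfl] at hd1
  rw [show gapDist g T = |F| from rfl, show gapDist g S = |E| from rfl] at hd2
  have he0 : 0 < |e| := gapDist_pos hg hs
  have hE0 : 0 < |E| := gapDist_pos hg (by omega : 0 < S)
  -- opposite signs
  have hsign : e * E < 0 := by
    by_contra hc
    rw [not_lt] at hc
    have h3 := (hmin (S - s) (by omega) (by omega)).trans (gapDist_le (g := g) (S - s) (P - p))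
    rw [show gapDist g s = |e| from rfl, Nat.cast_sub hsS.le] at h3
    push_cast at h3
    rw [show ((S : ℝ) - s) * g - (P - p) = E - e by rw [he, hE]; ring] at h3
    have h4 := sq_le_sq.2 h3
    have h5 := sq_lt_sq.2 hd1
    have h6 : E * E ≤ e * E := by
      rcases mul_nonneg_iff.1 hc with ⟨a1, a2⟩ | ⟨a1, a2⟩
      · rw [abs_of_nonneg a1, abs_of_nonneg a2] at hd1
        nlinarith
      · rw [abs_of_nonpos a1, abs_of_nonpos a2] at hd1
        nlinarith
    have h7 : 0 < E * E := by rw [← abs_mul_abs_self E]; positivity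
    nlinarith
  -- the determinant
  set D : ℤ := (s : ℤ) * P - (S : ℤ) * p with hD
  have hDR : (D : ℝ) = S * e - s * E := by
    rw [hD, he, hE]
    push_cast
    ring
  have hDsq : D * D = 1 := by
    obtain ⟨k, hk0, hk, hkd⟩ := gapDist_dirichlet (g := g) (show 2 ≤ S by omega)
    have h3 : |e| * S ≤ 1 :=
      (mul_le_mul_of_nonneg_right (hmin k hk0 hk) (Nat.cast_nonneg S)).trans hkd
    have hsS' : (s : ℝ) < S := by exact_mod_cast hsS
    have hs' : (0 : ℝ) < s := by exact_mod_cast hs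
    have h4 : |(D : ℝ)| = S * |e| + s * |E| := by
      rw [hDR]
      rcases mul_neg_iff.1 hsign with ⟨a1, a2⟩ | ⟨a1, a2⟩
      · rw [abs_of_pos a1, abs_of_neg a2, abs_of_pos (by nlinarith)]
        ring
      · rw [abs_of_neg a1, abs_of_pos a2, abs_of_neg (by nlinarith)]
        ring
    have h5 : (s : ℝ) * |E| < S * |e| := mul_lt_mul hsS' hd1.le hE0 (Nat.cast_nonneg S)
    have h6 : (0 : ℝ) < |(D : ℝ)| ∧ |(D : ℝ)| < 2 := by
      rw [h4]
      exact ⟨by positivity, by linarith⟩
    have h7 : (0 : ℤ) < |D| ∧ |D| < 2 := by exact_mod_cast h6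
    rw [← abs_mul_abs_self, show |D| = 1 by omega, one_mul]
  set u : ℤ := D * ((T : ℤ) * P - (S : ℤ) * Q) with hu
  set v : ℤ := D * ((s : ℤ) * Q - (T : ℤ) * p) with hv
  have hT : (T : ℤ) = u * s + v * S := by
    calc (T : ℤ) = D * D * T := by rw [hDsq, one_mul]
      _ = u * s + v * S := by rw [hu, hv, hD]; ring
  have hQ' : Q = u * p + v * P := by
    calc Q = D * D * Q := by rw [hDsq, one_mul]
      _ = u * p + v * P := by rw [hu, hv, hD]; ring
  have hFe : F = u * e + v * E := by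
    have hT' : (T : ℝ) = u * s + v * S := by exact_mod_cast hT
    rw [hF, hT', hQ', he, hE]
    push_cast
    ring
  have hFsq := sq_lt_sq.2 hd2
  have hEsq := sq_lt_sq.2 hd1
  have hu0 : u ≠ 0 := by
    intro h0
    rw [h0, zero_mul, zero_add] at hT
    have hv1 : (1 : ℤ) ≤ v := by
      by_contra hc
      nlinarith
    rw [hFe, h0] at hFsq
    push_cast at hFsq
    have : (1 : ℝ) ≤ v := by exact_mod_cast hv1
    nlinarith [mul_le_mul_of_nonneg_right (one_le_pow₀ (n := 2) this) (sq_nonneg E)]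
  have huv : 0 < u * v := by
    by_contra hc
    have h3 : (u : ℝ) * v ≤ 0 := by exact_mod_cast not_lt.1 hc
    have h4 : (1 : ℝ) ≤ (u : ℝ) ^ 2 := by
      have : (1 : ℤ) ≤ u ^ 2 := by nlinarith [mul_self_pos.2 hu0]
      exact_mod_cast this
    have h5 : 0 ≤ (u : ℝ) * v * (e * E) := mul_nonneg_of_nonpos_of_nonpos h3 hsign.le
    rw [hFe] at hFsq
    nlinarith [mul_le_mul_of_nonneg_right h4 (sq_nonneg e), sq_nonneg ((v : ℝ) * E)]
  rcases pos_and_pos_or_neg_and_neg_of_mul_pos huv with ⟨a1, a2⟩ | ⟨a1, a2⟩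
  · have : (s : ℤ) + S ≤ T := by nlinarith
    exact_mod_cast this
  · nlinarith

/-- Infinitely often the next best approximation is at least `3 / 2` times as large. -/
theorem exists_long_gap (hg : Irrational g) (N : ℕ) :
    ∃ s S, N ≤ s ∧ 0 < s ∧ 3 * s ≤ 2 * S ∧ ∀ m, 0 < m → m < S → gapDist g s ≤ gapDist g m := by
  obtain ⟨s, hN, hs⟩ := exists_best_ge hg N
  obtain ⟨S, hS, hbS⟩ := exists_next hg hs
  obtain ⟨T, hT, -⟩ := exists_next hg hbS
  have := add_le_of_next hg hs.1 hS hT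
  have := hS.1
  rcases le_or_gt (3 * s) (2 * S) with h | h
  · exact ⟨s, S, hN, hs.1, h, hS.2.2⟩
  · exact ⟨S, T, by omega, hbS.1, by omega, hT.2.2⟩

end FA.DigitRepetitions

end
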