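import Fermat.Agent.Roth.Applications
import Mathlib.Analysis.Real.OfDigits

/-!
# The criterion of Ferenczi and Mauduit

Repetitions of exponent above two near the beginning of the digits give rationals with
denominators `b ^ r (b ^ s - 1)` that are too near for an irrational algebraic number, by Ridout's
theorem.
-/

set_option autoImplicit false

noncomputable section

open Finset Filter Topology

namespace FA.DigitRepetitions

/-- The integer with the first `n` digits. -/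
def headInt {b : ℕ} (a : ℕ → Fin b) (n : ℕ) : ℤ :=
  ∑ i ∈ range n, ((a i : ℕ) : ℤ) * (b : ℤ) ^ (n - (i + 1))

theorem pow_mul_ofDigits {b : ℕ} (hb : 0 < b) (a : ℕ → Fin b) (n : ℕ) :
    (b : ℝ) ^ n * Real.ofDigits a = headInt a n + Real.ofDigits fun i => a (i + n) := by
  rw [Real.ofDigits_eq_sum_add_ofDigits a n, mul_add, ← mul_assoc,
    mul_inv_cancel₀ (pow_ne_zero n (Nat.cast_ne_zero.2 hb.ne')), one_mul, mul_sum]
  congr 1
  unfold headInt
  push_cast
  refine sum_congr rfl fun i hi => ?_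
  rw [Real.ofDigitsTerm, mul_comm, mul_assoc]
  congr 1
  rw [inv_mul_eq_div, div_eq_iff (pow_ne_zero _ (Nat.cast_ne_zero.2 hb.ne')), ← pow_add]
  congr 1
  have := mem_range.1 hi
  omega

/-- **The criterion.** -/
theorem transcendental_of_repetitions {b : ℕ} (hb : 2 ≤ b) {a : ℕ → Fin b} {w c : ℝ} (hw : 2 < w)
    (hrep : ∀ T : ℕ, ∃ r s : ℕ, T ≤ s ∧ (r : ℝ) ≤ c * s ∧
      ∀ j, r ≤ j → ((j + s : ℕ) : ℝ) < r + w * s → a (j + s) = a j)
    (hirr : Irrational (Real.ofDigits a)) : Transcendental ℚ (Real.ofDigits a) := by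
  classical
  intro halg
  set α := Real.ofDigits a with hα
  have hb0 : (0 : ℝ) < b := by exact_mod_cast (show 0 < b by omega)
  have hb1 : (1 : ℝ) < b := by exact_mod_cast hb
  set C := max c 0 with hC
  have hC0 : 0 ≤ C := le_max_right _ _
  set t := (w - 2) / (2 * (1 + C)) with ht
  have ht0 : 0 < t := div_pos (by linarith) (by positivity)
  have ht' : t * (1 + C) = (w - 2) / 2 := by rw [ht]; field_simp
  have hg : ∀ l : b.primeFactors, 0 < (l : ℕ) := fun l => (Nat.mem_primeFactors.1 l.2).1.pos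
  have hfin := Roth.finite_good (κ := 2 + t) halg hg (by linarith)
  have hev : ∀ᶠ s : ℕ in atTop, (∀ x ∈ {x : ℚ | |α - x| ≤ 1 ∧
      Roth.Good (fun l : b.primeFactors => (l : ℕ)) 1 α (2 + t) x},
      ((b : ℝ) ^ s)⁻¹ < |α - x|) ∧ 1 ≤ s ∧ 2 < (w - 2) / 2 * s := by
    refine Eventually.and ?_ ((eventually_ge_atTop 1).and ?_)
    · rw [hfin.eventually_all]
      intro x _
      have h1 : 0 < |α - x| := abs_pos.2 (sub_ne_zero.2 fun e => hirr ⟨x, e.symm⟩)
      have h2 : Tendsto (fun s : ℕ => ((b : ℝ) ^ s)⁻¹) atTop (𝓝 0) :=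
        (tendsto_pow_atTop_atTop_of_one_lt hb1).inv_tendsto_atTop
      exact h2.eventually_lt_const h1
    · exact (tendsto_natCast_atTop_atTop.const_mul_atTop (by linarith)).eventually_gt_atTop 2
  obtain ⟨T, hT⟩ := eventually_atTop.1 hev
  obtain ⟨r, s, hs, hrc, hper⟩ := hrep T
  obtain ⟨hfar, hs1, hsbig⟩ := hT s hs
  have hrC : (r : ℝ) ≤ C * s :=
    hrc.trans (mul_le_mul_of_nonneg_right (le_max_left _ _) (Nat.cast_nonneg s))
  -- the nearby rational
  have hbs : (b : ℝ) ≤ (b : ℝ) ^ s := le_self_pow₀ hb1.le (by omega)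
  have hb2 : (2 : ℝ) ≤ b := by exact_mod_cast hb
  have hq0 : (0 : ℝ) < (b : ℝ) ^ r * ((b : ℝ) ^ s - 1) := mul_pos (pow_pos hb0 r) (by linarith)
  set q : ℕ := b ^ r * (b ^ s - 1) with hq
  have hqR : (q : ℝ) = (b : ℝ) ^ r * ((b : ℝ) ^ s - 1) := by
    rw [hq, Nat.cast_mul, Nat.cast_sub (Nat.one_le_pow _ _ (by omega))]
    push_cast
    ring
  set x : ℚ := ((headInt a (r + s) - headInt a r : ℤ) : ℚ) / ((q : ℤ) : ℚ) with hx
  set T1 := Real.ofDigits fun i => a (i + (r + s)) with hT1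
  set T2 := Real.ofDigits fun i => a (i + r) with hT2
  have hdiff : α - x = (T1 - T2) / (q : ℝ) := by
    have h1 := pow_mul_ofDigits (show 0 < b by omega) a (r + s)
    have h2 := pow_mul_ofDigits (show 0 < b by omega) a r
    rw [← hα, ← hT1, pow_add] at h1
    rw [← hα, ← hT2] at h2
    rw [eq_div_iff (by rw [hqR]; exact hq0.ne'), hx]
    push_cast
    rw [sub_mul, div_mul_cancel₀ _ (by rw [hqR]; exact hq0.ne'), hqR]
    linarith
  set L := ⌈(w - 1) * s⌉₊ with hL
  have hclose : |α - x| ≤ ((b : ℝ) ^ L)⁻¹ / q := by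
    rw [hdiff, abs_div, abs_of_nonneg (Nat.cast_nonneg q : (0 : ℝ) ≤ q)]
    refine div_le_div_of_nonneg_right (Real.abs_ofDigits_sub_ofDigits_le fun i hi => ?_)
      (Nat.cast_nonneg q)
    rw [← add_assoc]
    refine hper (i + r) (Nat.le_add_left r i) ?_
    have := Nat.lt_ceil.1 hi
    push_cast
    linarith
  have hsL : s ≤ L := by
    rw [hL]
    exact_mod_cast (show (s : ℝ) ≤ (w - 1) * s by nlinarith [Nat.cast_nonneg (α := ℝ) s]).trans
      (Nat.le_ceil _)
  have hq1 : (1 : ℝ) ≤ q := by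
    rw [hqR]
    exact one_le_mul_of_one_le_of_one_le (one_le_pow₀ hb1.le) (by linarith)
  have hsmall : |α - x| ≤ ((b : ℝ) ^ s)⁻¹ := by
    refine hclose.trans ((div_le_self (by positivity) hq1).trans ?_)
    exact inv_anti₀ (pow_pos hb0 s) (pow_le_pow_right₀ hb1.le hsL)
  refine absurd (hfar x ⟨hsmall.trans (inv_le_one_of_one_le₀ (one_le_pow₀ hb1.le)), ?_⟩)
    (not_lt.2 hsmall)
  -- it is too near
  set d1 := Nat.gcd x.den (b ^ r) with hd1
  have hd1pos : 0 < d1 := Nat.gcd_pos_of_pos_left _ x.pos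
  refine ⟨0, fun l => d1.factorization l, by simp, ?_, ?_⟩
  · rw [prod_coe_sort b.primeFactors fun l => l ^ d1.factorization l,
      Roth.prod_factorization_eq (show b ≠ 0 by omega) (Nat.gcd_dvd_right _ _), one_mul]
    exact Nat.gcd_dvd_left _ _
  rw [prod_coe_sort b.primeFactors fun l => l ^ d1.factorization l,
    Roth.prod_factorization_eq (show b ≠ 0 by omega) (Nat.gcd_dvd_right _ _)]
  simp only [Pi.zero_apply, pow_zero, prod_const_one, Nat.cast_one, one_mul]
  have hden : x.den ∣ q := by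
    have h := Rat.den_dvd (headInt a (r + s) - headInt a r) (q : ℤ)
    rw [Rat.divInt_eq_div, ← hx] at h
    exact_mod_cast h
  have hd : x.den ≤ d1 * b ^ s := by
    have h1 : x.den ∣ d1 * Nat.gcd x.den (b ^ s - 1) :=
      (Nat.dvd_gcd dvd_rfl hden).trans (Nat.gcd_mul_right_dvd_mul_gcd _ _ _)
    refine (Nat.le_of_dvd (Nat.mul_pos hd1pos (Nat.gcd_pos_of_pos_left _ x.pos)) h1).trans
      (Nat.mul_le_mul_left _ ?_)
    exact (Nat.gcd_le_right _ (by
      have : b ≤ b ^ s := Nat.le_self_pow (by omega) b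
      omega)).trans (Nat.sub_le _ _)
  have hd1R : (0 : ℝ) < d1 := by exact_mod_cast hd1pos
  have hd1le : (d1 : ℝ) ≤ (b : ℝ) ^ r := by
    exact_mod_cast Nat.gcd_le_right _ (pow_pos (show 0 < b by omega) r)
  calc |α - x| ≤ ((b : ℝ) ^ L)⁻¹ / q := hclose
    _ ≤ ((b : ℝ) ^ ((w - 1) * s))⁻¹ / ((b : ℝ) ^ r * ((b : ℝ) ^ s / b)) := by
        refine div_le_div₀ (by positivity) (inv_anti₀ (by positivity) ?_) (by positivity) ?_
        · rw [← Real.rpow_natCast _ L]
          exact Real.rpow_le_rpow_of_exponent_le hb1.le (Nat.le_ceil _)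
        · rw [hqR]
          refine mul_le_mul_of_nonneg_left ?_ (by positivity)
          rw [div_le_iff₀ hb0]
          nlinarith
    _ = (b : ℝ) ^ (-((w - 1) * s) - r - s + 1) := by
        rw [← Real.rpow_natCast _ r, ← Real.rpow_natCast _ s, Real.rpow_add hb0,
          Real.rpow_sub hb0, Real.rpow_sub hb0, Real.rpow_neg hb0.le, Real.rpow_one]
        field_simp
    _ < (b : ℝ) ^ ((r : ℝ) * (1 - (2 + t)) + (s : ℝ) * -(2 + t)) := by
        refine Real.rpow_lt_rpow_of_exponent_lt hb1 ?_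
        have h1 : t * r ≤ t * (C * s) := mul_le_mul_of_nonneg_left hrC ht0.le
        have h2 : t * (C * s) + t * s = (w - 2) / 2 * s := by rw [← ht']; ring
        linarith
    _ = ((b : ℝ) ^ r) ^ (1 - (2 + t)) * ((b : ℝ) ^ s) ^ (-(2 + t)) := by
        rw [← Real.rpow_natCast_mul hb0.le, ← Real.rpow_natCast_mul hb0.le, ← Real.rpow_add hb0]
    _ ≤ (d1 : ℝ) ^ (1 - (2 + t)) * ((b : ℝ) ^ s) ^ (-(2 + t)) :=
        mul_le_mul_of_nonneg_right (Real.rpow_le_rpow_of_nonpos hd1R hd1le (by linarith))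
          (by positivity)
    _ = (d1 : ℝ) * ((d1 : ℝ) * (b : ℝ) ^ s) ^ (-(2 + t)) := by
        rw [Real.mul_rpow hd1R.le (by positivity), ← mul_assoc, ← Real.rpow_one_add' hd1R.le
          (by linarith), ← sub_eq_add_neg]
    _ ≤ (d1 : ℝ) * (x.den : ℝ) ^ (-(2 + t)) :=
        mul_le_mul_of_nonneg_left (Real.rpow_le_rpow_of_nonpos (by exact_mod_cast x.pos)
          (by exact_mod_cast hd) (by linarith)) hd1R.le

end FA.DigitRepetitions

end
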