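import Fermat.Agent.DigitRepetitions.Sturmian
import Mathlib.NumberTheory.Real.GoldenRatio

/-!
# The Fibonacci word

It is the characteristic word of slope `1 / φ ^ 2`, so the number with these digits is
transcendental in every base.
-/

set_option autoImplicit false

noncomputable section

namespace FA.DigitRepetitions

/-- The slope `1 / φ ^ 2` of the Fibonacci word. -/
def slope : ℝ := 1 + Real.goldenConj

theorem slope_irrational : Irrational slope := by
  simpa [slope] using Real.goldenConj_irrational.natCast_add 1

theorem slope_pos : 0 < slope := by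
  rw [slope]
  linarith [Real.neg_one_lt_goldenConj]

theorem slope_le_one : slope ≤ 1 := by
  rw [slope]
  linarith [Real.goldenConj_neg]

/-- The Fibonacci word. -/
def fibLetter (n : ℕ) : ℕ := letter slope n

theorem fibLetter_cast (n : ℕ) :
    (fibLetter n : ℤ) = ⌊((n + 2 : ℕ) : ℝ) * slope⌋ - ⌊((n + 1 : ℕ) : ℝ) * slope⌋ :=
  letter_cast slope_pos.le n

/-- The digits. -/
def fibDigit (b : ℕ) (hb : 2 ≤ b) (n : ℕ) : Fin b :=
  letterDigit hb slope_pos.le slope_le_one n

/-- **The Fibonacci word gives transcendental numbers.** -/
theorem transcendental_fibNumber {b : ℕ} (hb : 2 ≤ b) :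
    Transcendental ℚ (Real.ofDigits (fibDigit b hb)) :=
  transcendental_sturmian hb slope_irrational slope_pos slope_le_one

end FA.DigitRepetitions

end
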