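import Fermat.Agent.DigitRepetitions.Sturmian
import Mathlib.Analysis.SpecificLimits.Normed

/-!
# The series of Hecke and Mahler, and of Danilov
-/

set_option autoImplicit false

noncomputable section

open Finset Filter Topology

namespace FA.DigitRepetitions

theorem summable_floor_div {b : ℕ} (hb : 2 ≤ b) (g : ℝ) :
    Summable fun n : ℕ => (⌊(n : ℝ) * g⌋ : ℝ) / (b : ℝ) ^ n := by
  have hb1 : (1 : ℝ) < b := by exact_mod_cast hb
  have hr : ‖((b : ℝ))⁻¹‖ < 1 := by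
    rw [norm_inv, Real.norm_eq_abs, Nat.abs_cast]
    exact inv_lt_one_of_one_lt₀ hb1
  refine Summable.of_norm_bounded
    (((summable_pow_mul_geometric_of_norm_lt_one 1 hr).mul_left |g|).add
      (summable_geometric_of_norm_lt_one hr)) fun n => ?_
  rw [Real.norm_eq_abs, abs_div, abs_of_nonneg (pow_nonneg (Nat.cast_nonneg b) n : (0 : ℝ) ≤ _),
    div_eq_mul_inv, inv_pow, pow_one, ← mul_assoc, ← add_one_mul]
  refine mul_le_mul_of_nonneg_right ?_ (by positivity)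
  have h1 := Int.floor_le ((n : ℝ) * g)
  have h2 := Int.lt_floor_add_one ((n : ℝ) * g)
  have h3 : |(n : ℝ) * g| = |g| * n := by rw [abs_mul, Nat.abs_cast, mul_comm]
  exact abs_le.2 ⟨by linarith [neg_abs_le ((n : ℝ) * g)], by linarith [le_abs_self ((n : ℝ) * g)]⟩

theorem isAlgebraic_geometric_shift {b : ℕ} :
    IsAlgebraic ℚ (∑' n : ℕ, ((b : ℝ) ^ (n + 1))⁻¹) := by
  simp only [pow_succ', mul_inv, ← inv_pow]
  rw [tsum_mul_left]
  refine (isAlgebraic_natCast b).inv.mul ?_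
  rcases lt_or_ge ‖((b : ℝ))⁻¹‖ 1 with h | h
  · rw [tsum_geometric_of_norm_lt_one h]
    exact (isAlgebraic_one.sub (isAlgebraic_natCast b).inv).inv
  · rw [tsum_eq_zero_of_not_summable fun hs => h.not_gt (summable_geometric_iff_norm_lt_one.1 hs)]
    exact isAlgebraic_zero

/-- The letters for any irrational slope. -/
theorem transcendental_diff_series {b : ℕ} (hb : 2 ≤ b) {g : ℝ} (hg : Irrational g) :
    Transcendental ℚ (∑' n : ℕ,
      ((⌊((n : ℝ) + 2) * g⌋ : ℝ) - ⌊((n : ℝ) + 1) * g⌋) / (b : ℝ) ^ (n + 1)) := by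
  set k := ⌊g⌋ with hk
  set g' := g - k with hg'
  have hirr : Irrational g' := hg.sub_intCast k
  have h0 : 0 < g' := sub_pos.2 (lt_of_le_of_ne (Int.floor_le g) (hg.ne_int k).symm)
  have h1 : g' ≤ 1 := by rw [hg', hk]; linarith [Int.lt_floor_add_one g]
  have hterm : ∀ n : ℕ,
      ((⌊((n : ℝ) + 2) * g⌋ : ℝ) - ⌊((n : ℝ) + 1) * g⌋) / (b : ℝ) ^ (n + 1) =
        Real.ofDigitsTerm (letterDigit hb h0.le h1) n + k * ((b : ℝ) ^ (n + 1))⁻¹ := by
    intro n
    have hj : ∀ j : ℕ, ⌊(j : ℝ) * g⌋ = ⌊(j : ℝ) * g'⌋ + j * k := by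
      intro j
      rw [← Int.floor_add_intCast, hg']
      congr 1
      push_cast
      ring
    have h2 := hj (n + 2)
    have h3 := hj (n + 1)
    have h4 : ((letter g' n : ℤ) : ℝ) = _ := congrArg Int.cast (letter_cast h0.le n)
    push_cast at h2 h3 h4
    rw [h2, h3, Real.ofDigitsTerm, letterDigit, div_eq_mul_inv, ← add_mul]
    congr 1
    simp only [h4]
    push_cast
    ring
  have hs : Summable fun n : ℕ => ((b : ℝ) ^ (n + 1))⁻¹ := by
    have hb1 : (1 : ℝ) < b := by exact_mod_cast hb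
    simp only [pow_succ', mul_inv, ← inv_pow]
    exact (summable_geometric_of_lt_one (by positivity) (inv_lt_one_of_one_lt₀ hb1)).mul_left _
  rw [tsum_congr hterm, Real.summable_ofDigitsTerm.tsum_add (hs.mul_left _), tsum_mul_left]
  intro halg
  have h2 := halg.sub ((isAlgebraic_intCast (R := ℚ) (A := ℝ) k).mul
    (isAlgebraic_geometric_shift (b := b)))
  rw [add_sub_cancel_right] at h2
  exact transcendental_sturmian hb hirr h0 h1 h2

/-- **The series of Hecke and Mahler.** -/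
theorem transcendental_floor_series {b : ℕ} (hb : 2 ≤ b) {g : ℝ} (hg : Irrational g) :
    Transcendental ℚ (∑' n : ℕ, (⌊(n : ℝ) * g⌋ : ℝ) / (b : ℝ) ^ n) := by
  intro halg
  refine transcendental_diff_series hb hg ?_
  have hs := summable_floor_div hb g
  set H := ∑' n : ℕ, (⌊(n : ℝ) * g⌋ : ℝ) / (b : ℝ) ^ n with hH
  have hbne : (b : ℝ) ≠ 0 := Nat.cast_ne_zero.2 (by omega)
  have e1 := hs.sum_add_tsum_nat_add 1
  have e2 := hs.sum_add_tsum_nat_add 2
  simp only [sum_range_succ, sum_range_zero, zero_add, Nat.cast_zero, zero_mul, Int.floor_zero,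
    Int.cast_zero, zero_div, Nat.cast_one, one_mul, pow_one] at e1 e2
  have hval : ∑' n : ℕ, ((⌊((n : ℝ) + 2) * g⌋ : ℝ) - ⌊((n : ℝ) + 1) * g⌋) / (b : ℝ) ^ (n + 1) =
      b * (H - ⌊g⌋ / (b : ℝ)) - H := by
    rw [show H - ⌊g⌋ / (b : ℝ) =
        ∑' n : ℕ, (⌊((n + 2 : ℕ) : ℝ) * g⌋ : ℝ) / (b : ℝ) ^ (n + 2) by linarith, ← tsum_mul_left]
    conv_rhs => rw [hH, ← e1]
    rw [← ((summable_nat_add_iff 2).2 hs |>.mul_left (b : ℝ)).tsum_sub
      ((summable_nat_add_iff 1).2 hs)]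
    refine tsum_congr fun n => ?_
    rw [pow_succ _ (n + 1)]
    push_cast
    field_simp
  rw [hval]
  exact ((isAlgebraic_natCast (R := ℚ) b).mul
    (halg.sub ((isAlgebraic_intCast ⌊g⌋).mul (isAlgebraic_natCast b).inv))).sub halg

/-- **Danilov's series.** -/
theorem transcendental_beatty_series {b : ℕ} (hb : 2 ≤ b) {θ : ℝ} (hθ : Irrational θ)
    (h1 : 1 < θ) : Transcendental ℚ (∑' n : ℕ, ((b : ℝ) ^ ⌊((n : ℝ) + 1) * θ⌋₊)⁻¹) := by
  have hg0 : 0 < θ⁻¹ := inv_pos.2 (by linarith)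
  have hg1 : θ⁻¹ ≤ 1 := (inv_lt_one_of_one_lt₀ h1).le
  have hg : Irrational θ⁻¹ := irrational_inv_iff.2 hθ
  set a := letterDigit hb hg0.le hg1 with ha
  have hfl1 : ∀ n : ℕ, 1 ≤ ⌊((n : ℝ) + 1) * θ⌋₊ := fun n =>
    Nat.one_le_iff_ne_zero.2 fun h0 => by
      have := Nat.lt_floor_add_one (((n : ℝ) + 1) * θ)
      rw [h0] at this
      push_cast at this
      nlinarith [Nat.cast_nonneg (α := ℝ) n]
  set i : ℕ → ℕ := fun n => ⌊((n : ℝ) + 1) * θ⌋₊ - 1 with hi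
  have hmono : StrictMono fun n : ℕ => ⌊((n : ℝ) + 1) * θ⌋₊ := strictMono_nat_of_lt_succ fun n => by
    refine Nat.lt_of_succ_le (Nat.le_floor ?_)
    have := Nat.floor_le (show (0 : ℝ) ≤ ((n : ℝ) + 1) * θ by positivity)
    push_cast
    nlinarith
  have hinj : Function.Injective i := fun p q hpq => hmono.injective (by
    simp only [hi] at hpq
    have := hfl1 p
    have := hfl1 q
    omega)
  -- the letter at `m` is one exactly on the range of `i`
  have hone : ∀ n, letter θ⁻¹ (i n) = 1 := by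
    intro n
    have hc := hfl1 n
    have h2 := Nat.floor_le (show (0 : ℝ) ≤ ((n : ℝ) + 1) * θ by positivity)
    have h3 := Nat.lt_floor_add_one (((n : ℝ) + 1) * θ)
    have hne : (⌊((n : ℝ) + 1) * θ⌋₊ : ℝ) ≠ ((n : ℝ) + 1) * θ := fun e =>
      (hθ.natCast_mul (Nat.succ_ne_zero n)).ne_nat ⌊((n : ℝ) + 1) * θ⌋₊ (by push_cast; exact e.symm)
    have h2' := lt_of_le_of_ne h2 hne
    have e1 : ⌊((i n + 2 : ℕ) : ℝ) * θ⁻¹⌋ ≥ (n : ℤ) + 1 := by
      refine Int.le_floor.2 ?_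
      rw [← div_eq_mul_inv, le_div_iff₀ (by linarith), show i n + 2 = ⌊((n : ℝ) + 1) * θ⌋₊ + 1 by
        simp only [hi]; omega]
      push_cast
      linarith
    have e2 : ⌊((i n + 1 : ℕ) : ℝ) * θ⁻¹⌋ < (n : ℤ) + 1 := by
      refine Int.floor_lt.2 ?_
      rw [← div_eq_mul_inv, div_lt_iff₀ (by linarith), show i n + 1 = ⌊((n : ℝ) + 1) * θ⌋₊ by
        simp only [hi]; omega]
      push_cast
      linarith
    have := letter_le hg0.le hg1 (i n)
    have := letter_cast hg0.le (i n)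
    omega
  have hsupp : Function.support (Real.ofDigitsTerm a) ⊆ Set.range i := by
    intro m hm
    have hl : letter θ⁻¹ m ≠ 0 := fun e => hm (by simp [Real.ofDigitsTerm, ha, letterDigit, e])
    have hc := letter_cast hg0.le m
    have h2 := Int.floor_le (((m + 2 : ℕ) : ℝ) * θ⁻¹)
    have h3 := Int.lt_floor_add_one (((m + 1 : ℕ) : ℝ) * θ⁻¹)
    have h4 : (0 : ℤ) ≤ ⌊((m + 1 : ℕ) : ℝ) * θ⁻¹⌋ := Int.floor_nonneg.2 (by positivity)
    obtain ⟨n, hn⟩ : ∃ n : ℕ, ⌊((m + 2 : ℕ) : ℝ) * θ⁻¹⌋ = (n : ℤ) + 1 :=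
      ⟨(⌊((m + 2 : ℕ) : ℝ) * θ⁻¹⌋ - 1).toNat, by omega⟩
    have h5 : (⌊((m + 1 : ℕ) : ℝ) * θ⁻¹⌋ : ℝ) ≤ n := by
      have : ⌊((m + 1 : ℕ) : ℝ) * θ⁻¹⌋ ≤ (n : ℤ) := by omega
      exact_mod_cast this
    rw [hn, ← div_eq_mul_inv, le_div_iff₀ (by linarith)] at h2
    have h6 : ((m + 1 : ℕ) : ℝ) * θ⁻¹ < (n : ℝ) + 1 := by linarith
    rw [← div_eq_mul_inv, div_lt_iff₀ (by linarith)] at h6
    push_cast at h2 h6
    have hne : ((n : ℝ) + 1) * θ ≠ (m : ℝ) + 2 := fun e =>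
      (hθ.natCast_mul (Nat.succ_ne_zero n)).ne_nat (m + 2) (by push_cast; exact e)
    refine ⟨n, ?_⟩
    have : ⌊((n : ℝ) + 1) * θ⌋₊ = m + 1 := (Nat.floor_eq_iff (by positivity)).2
      ⟨by push_cast; linarith, by push_cast; linarith [lt_of_le_of_ne h2 hne]⟩
    simp only [hi]
    omega
  have heq : Real.ofDigits a = ∑' n : ℕ, ((b : ℝ) ^ ⌊((n : ℝ) + 1) * θ⌋₊)⁻¹ := by
    rw [Real.ofDigits, ← hinj.tsum_eq hsupp]
    refine tsum_congr fun n => ?_
    rw [Real.ofDigitsTerm, show i n + 1 = ⌊((n : ℝ) + 1) * θ⌋₊ by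
      have := hfl1 n
      simp only [hi]; omega]
    simp [ha, letterDigit, hone n]
  rw [← heq]
  exact transcendental_sturmian hb hg hg0 hg1

end FA.DigitRepetitions

end
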