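import Fermat.Agent.DigitRepetitions.BestApproximation
import Fermat.Agent.DigitRepetitions.Criterion

/-!
# Sturmian numbers

For an irrational `g` in `(0, 1)` the word `⌊(n + 2) g⌋ - ⌊(n + 1) g⌋` begins with repetitions of
exponent above two infinitely often and is not eventually periodic, so the number with these
digits is transcendental in every base.
-/

set_option autoImplicit false

noncomputable section

open Finset Filter Topology

namespace FA.DigitRepetitions

/-- The `n`th letter of the characteristic word of slope `g`. -/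
def letter (g : ℝ) (n : ℕ) : ℕ :=
  (⌊((n + 2 : ℕ) : ℝ) * g⌋ - ⌊((n + 1 : ℕ) : ℝ) * g⌋).toNat

variable {g : ℝ}

theorem letter_cast (hg : 0 ≤ g) (n : ℕ) :
    (letter g n : ℤ) = ⌊((n + 2 : ℕ) : ℝ) * g⌋ - ⌊((n + 1 : ℕ) : ℝ) * g⌋ :=
  Int.toNat_of_nonneg (sub_nonneg.2 (Int.floor_le_floor (mul_le_mul_of_nonneg_right
    (by exact_mod_cast Nat.le_succ (n + 1)) hg)))

theorem letter_le (h0 : 0 ≤ g) (h1 : g ≤ 1) (n : ℕ) : letter g n ≤ 1 := by
  have h := letter_cast h0 n
  have h2 : ⌊((n + 2 : ℕ) : ℝ) * g⌋ ≤ ⌊((n + 1 : ℕ) : ℝ) * g⌋ + 1 := by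
    rw [← Int.floor_add_one]
    refine Int.floor_le_floor ?_
    push_cast
    linarith
  omega

/-- A best approximation is a period of the floors below the next one. -/
theorem floor_add_best (hg : Irrational g) {s m : ℕ} (hs : 0 < s)
    (h : gapDist g s ≤ gapDist g m) :
    ⌊((m + s : ℕ) : ℝ) * g⌋ = ⌊(m : ℝ) * g⌋ + round ((s : ℝ) * g) := by
  set p := round ((s : ℝ) * g) with hp
  set e := (s : ℝ) * g - p with he
  set z := (m : ℝ) * g with hz
  have hval : ((m + s : ℕ) : ℝ) * g = z + e + p := by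
    rw [hz, he]
    push_cast
    ring
  rw [hval, Int.floor_add_intCast]
  congr 1
  have hb0 := h.trans (gapDist_le m ⌊z⌋)
  have hb1 := h.trans (gapDist_le m (⌊z⌋ + 1))
  rw [show gapDist g s = |e| from rfl, ← hz] at hb0 hb1
  push_cast at hb1
  have h0 := Int.floor_le z
  have h1 := Int.lt_floor_add_one z
  rw [abs_of_nonneg (by linarith : (0 : ℝ) ≤ z - ⌊z⌋)] at hb0
  rw [abs_of_nonpos (by linarith : z - ((⌊z⌋ : ℝ) + 1) ≤ 0)] at hb1
  refine Int.floor_eq_iff.2 ⟨by linarith [neg_abs_le e], ?_⟩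
  refine lt_of_le_of_ne (by linarith [le_abs_self e]) fun e1 => ?_
  refine (hg.natCast_mul (by omega : m + s ≠ 0)).ne_int (⌊z⌋ + 1 + p) ?_
  rw [hval, e1]
  push_cast
  ring

theorem letter_add (hg : Irrational g) (h0 : 0 ≤ g) {s S j : ℕ} (hs : 0 < s)
    (hmin : ∀ m, 0 < m → m < S → gapDist g s ≤ gapDist g m) (hj : j + 2 < S) :
    letter g (j + s) = letter g j := by
  have h1 := floor_add_best hg hs (hmin (j + 1) (by omega) (by omega))
  have h2 := floor_add_best hg hs (hmin (j + 2) (by omega) hj)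
  zify
  rw [letter_cast h0, letter_cast h0, show j + s + 2 = j + 2 + s by ring,
    show j + s + 1 = j + 1 + s by ring, h1, h2]
  ring

theorem exists_letter_eq_one (h0 : 0 < g) (h1 : g ≤ 1) (N : ℕ) :
    ∃ n, N ≤ n ∧ letter g n = 1 := by
  by_contra h
  push Not at h
  have hz : ∀ l : ℕ, ⌊((N + l + 1 : ℕ) : ℝ) * g⌋ = ⌊((N + 1 : ℕ) : ℝ) * g⌋ := by
    intro l
    induction l with
    | zero => rfl
    | succ l ih =>
      have e1 : letter g (N + l) = 0 := by
        have := letter_le h0.le h1 (N + l)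
        have := h (N + l) (Nat.le_add_right N l)
        omega
      have e2 := letter_cast h0.le (N + l)
      rw [e1, ih] at e2
      rw [show N + (l + 1) + 1 = N + l + 2 by ring]
      omega
  obtain ⟨l, hl⟩ := exists_nat_gt ((⌊((N + 1 : ℕ) : ℝ) * g⌋ + 1) / g)
  have h2 := Int.lt_floor_add_one (((N + l + 1 : ℕ) : ℝ) * g)
  rw [hz l] at h2
  rw [div_lt_iff₀ h0] at hl
  push_cast at h2 hl
  nlinarith [Nat.cast_nonneg (α := ℝ) N]

/-- The digits. -/
def letterDigit {b : ℕ} (hb : 2 ≤ b) (h0 : 0 ≤ g) (h1 : g ≤ 1) (n : ℕ) : Fin b :=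
  ⟨letter g n, by have := letter_le h0 h1 n; omega⟩

theorem ofDigits_tail_pos {b : ℕ} (hb : 2 ≤ b) (h0 : 0 < g) (h1 : g ≤ 1) (N : ℕ) :
    0 < Real.ofDigits fun i => letterDigit hb h0.le h1 (i + N) := by
  obtain ⟨n, hn, e1⟩ := exists_letter_eq_one h0 h1 N
  obtain ⟨i, rfl⟩ := Nat.exists_eq_add_of_le' hn
  refine Real.summable_ofDigitsTerm.tsum_pos (fun j => Real.ofDigitsTerm_nonneg) i ?_
  have hb0 : (0 : ℝ) < b := by exact_mod_cast (show 0 < b by omega)
  simp only [Real.ofDigitsTerm, letterDigit, e1, Nat.cast_one, one_mul]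
  positivity

theorem not_periodic (hg : Irrational g) (h0 : 0 ≤ g) {n d : ℕ} (hd : 0 < d) :
    ¬∀ i, letter g (i + n) = letter g (i + (n + d)) := by
  intro hdig
  set F : ℕ → ℤ := fun l => ⌊((n + l + d + 1 : ℕ) : ℝ) * g⌋ - ⌊((n + l + 1 : ℕ) : ℝ) * g⌋
    with hF
  have hconst : ∀ l, F l = F 0 := by
    intro l
    induction l with
    | zero => rfl
    | succ l ih =>
      have h1 := letter_cast h0 (n + l + d)
      have h2 := letter_cast h0 (n + l)
      have h3 : letter g (n + l) = letter g (n + l + d) := by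
        have := hdig l
        rwa [add_comm l n, show l + (n + d) = n + l + d by ring] at this
      rw [h3] at h2
      simp only [hF] at ih ⊢
      rw [show n + (l + 1) + d + 1 = n + l + d + 2 by ring,
        show n + (l + 1) + 1 = n + l + 2 by ring]
      omega
  have hlin : ∀ l : ℕ, ⌊((n + l * d + 1 : ℕ) : ℝ) * g⌋ =
      ⌊((n + 1 : ℕ) : ℝ) * g⌋ + l * F 0 := by
    intro l
    induction l with
    | zero => simp
    | succ l ih =>
      have h1 := hconst (l * d)
      simp only [hF] at h1 ⊢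
      rw [show n + (l + 1) * d + 1 = n + l * d + d + 1 by ring]
      simp only [hF] at ih
      push_cast at h1 ih ⊢
      linarith
  have hne : (d : ℝ) * g - F 0 ≠ 0 := sub_ne_zero.2 ((hg.natCast_mul hd.ne').ne_int _)
  obtain ⟨l, hl⟩ := exists_nat_gt (2 / |(d : ℝ) * g - F 0|)
  rw [div_lt_iff₀ (abs_pos.2 hne)] at hl
  have h1 := Int.floor_le (((n + l * d + 1 : ℕ) : ℝ) * g)
  have h2 := Int.lt_floor_add_one (((n + l * d + 1 : ℕ) : ℝ) * g)
  have h3 := Int.floor_le (((n + 1 : ℕ) : ℝ) * g)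
  have h4 := Int.lt_floor_add_one (((n + 1 : ℕ) : ℝ) * g)
  rw [hlin l] at h1 h2
  push_cast at h1 h2 h3 h4
  have h5 : |(l : ℝ) * ((d : ℝ) * g - F 0)| ≤ 1 := abs_le.2 ⟨by linarith, by linarith⟩
  rw [abs_mul, Nat.abs_cast] at h5
  linarith

theorem irrational_sturmian {b : ℕ} (hb : 2 ≤ b) (hg : Irrational g) (h0 : 0 < g) (h1 : g ≤ 1) :
    Irrational (Real.ofDigits (letterDigit hb h0.le h1)) := by
  rintro ⟨q, hq⟩
  have hb0 : (0 : ℝ) < b := by exact_mod_cast (show 0 < b by omega)
  set Z : ℕ → ℝ := fun n => Real.ofDigits fun i => letterDigit hb h0.le h1 (i + n) with hZ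
  have hZint : ∀ n, ∃ i : ℤ, (i : ℝ) = Z n * q.den := fun n =>
    ⟨(b : ℤ) ^ n * q.num - headInt (letterDigit hb h0.le h1) n * q.den, by
      have e1 := pow_mul_ofDigits (show 0 < b by omega) (letterDigit hb h0.le h1) n
      rw [← hq] at e1
      have e2 : (q : ℝ) * q.den = q.num := by exact_mod_cast Rat.mul_den_eq_num q
      push_cast
      rw [← e2, ← mul_assoc, e1]
      ring⟩
  choose I hI using hZint
  have hIb : ∀ n, I n ∈ Set.Icc (0 : ℤ) q.den := fun n => by
    have e1 : (0 : ℝ) ≤ I n := by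
      rw [hI]
      exact mul_nonneg (Real.ofDigits_nonneg _) (Nat.cast_nonneg _)
    have e2 : (I n : ℝ) ≤ q.den := by
      rw [hI]
      exact mul_le_of_le_one_left (Nat.cast_nonneg _) (Real.ofDigits_le_one _)
    exact ⟨by exact_mod_cast e1, by exact_mod_cast e2⟩
  obtain ⟨n, n', hlt, heq⟩ := Set.finite_Icc (0 : ℤ) q.den |>.exists_lt_map_eq_of_forall_mem hIb
  have hZeq : Z n = Z n' := by
    have e1 : (I n : ℝ) = I n' := by rw [heq]
    rw [hI, hI] at e1
    exact mul_right_cancel₀ (Nat.cast_ne_zero.2 q.den_nz) e1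
  -- equal tails have equal digits
  have hdig : ∀ i, letter g (i + n) = letter g (i + n') := by
    intro i
    induction i using Nat.strong_induction_on with
    | _ i ih =>
      have hn := Real.ofDigits_eq_sum_add_ofDigits
        (fun j => letterDigit hb h0.le h1 (j + n)) (i + 1)
      have hn' := Real.ofDigits_eq_sum_add_ofDigits
        (fun j => letterDigit hb h0.le h1 (j + n')) (i + 1)
      rw [sum_range_succ] at hn hn'
      have h3 : ∑ j ∈ range i, Real.ofDigitsTerm (fun j => letterDigit hb h0.le h1 (j + n)) j =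
          ∑ j ∈ range i, Real.ofDigitsTerm (fun j => letterDigit hb h0.le h1 (j + n')) j :=
        sum_congr rfl fun j hj => by
          simp [Real.ofDigitsTerm, letterDigit, ih j (mem_range.1 hj)]
      simp only [hZ] at hZeq
      rw [hZeq, h3, hn'] at hn
      simp only [Real.ofDigitsTerm, letterDigit] at hn
      have hinv : (0 : ℝ) < ((b : ℝ) ^ (i + 1))⁻¹ := by positivity
      have hp1 := ofDigits_tail_pos hb h0 h1 (i + 1 + n)
      have hp2 := ofDigits_tail_pos hb h0 h1 (i + 1 + n')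
      have hu1 := Real.ofDigits_le_one fun j => letterDigit hb h0.le h1 (j + (i + 1 + n))
      have hu2 := Real.ofDigits_le_one fun j => letterDigit hb h0.le h1 (j + (i + 1 + n'))
      simp only [letterDigit, ← add_assoc] at hn hp1 hp2 hu1 hu2
      have l1 := letter_le h0.le h1 (i + n)
      have l2 := letter_le h0.le h1 (i + n')
      rcases Nat.le_one_iff_eq_zero_or_eq_one.1 l1 with e1 | e1 <;>
        rcases Nat.le_one_iff_eq_zero_or_eq_one.1 l2 with e2 | e2 <;>
          simp only [e1, e2, Nat.cast_zero, Nat.cast_one, zero_mul, one_mul] at hn ⊢ <;>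
          exact absurd hn (by nlinarith)
  obtain ⟨d, rfl⟩ := Nat.exists_eq_add_of_le hlt.le
  exact not_periodic hg h0.le (by omega : 0 < d) hdig

/-- **Sturmian numbers are transcendental.** -/
theorem transcendental_sturmian {b : ℕ} (hb : 2 ≤ b) (hg : Irrational g) (h0 : 0 < g)
    (h1 : g ≤ 1) : Transcendental ℚ (Real.ofDigits (letterDigit hb h0.le h1)) := by
  refine transcendental_of_repetitions hb (w := 9 / 4) (c := 0) (by norm_num) (fun T => ?_)
    (irrational_sturmian hb hg h0 h1)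
  obtain ⟨s, S, hT, hs, hsS, hmin⟩ := exists_long_gap hg (T + 8)
  refine ⟨0, s, by omega, by simp, fun j _ hj => Fin.ext (letter_add hg h0.le hs hmin ?_)⟩
  have h4 : 4 * (j + s) < 9 * s := by
    have : (4 : ℝ) * ((j : ℝ) + s) < 9 * s := by
      push_cast at hj
      linarith
    exact_mod_cast this
  omega

end FA.DigitRepetitions

end
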